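import Mathlib

/-!
# Kummer's descent for the second case of Fermat's Last Theorem (abstract form)

Independent implementation (helper11).  Everything lives in `Fermat.Agent.S11`.
-/

open Polynomial Finset

namespace Fermat.Agent.S11

/-- Abstract data for the Kummer descent in a principal ideal domain `R` containing a primitive
`p`-th root of unity `ζ` such that `ζ - 1` is a prime with residue field `𝔽_p`. -/
structure KSetting (R : Type*) [CommRing R] (p : ℕ) where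
  ζ : R
  hp : p.Prime
  hodd : p ≠ 2
  hζ : IsPrimitiveRoot ζ p
  prime_lam : Prime (ζ - 1)
  assoc : Associated (p : R) ((ζ - 1) ^ (p - 1))
  res : ∀ x : R, ∃ n : ℤ, (ζ - 1) ∣ x - (n : R)
  int_dvd : ∀ n : ℤ, (ζ - 1) ∣ (n : R) → (p : ℤ) ∣ n
  kummer : ∀ u : Rˣ, (∃ n : ℤ, (p : R) ∣ (u : R) - (n : R)) → ∃ v : Rˣ, u = v ^ p

namespace KSetting

set_option linter.unusedSectionVars false

variable {R : Type*} [CommRing R] [IsDomain R] {p : ℕ} (S : KSetting R p)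

/-- The prime `λ = ζ - 1`. -/
abbrev lam : R := S.ζ - 1

/-- The `p`-th roots of unity. -/
noncomputable abbrev mu (_S : KSetting R p) : Finset R := nthRootsFinset p (1 : R)

lemma lam_ne_zero : S.lam ≠ 0 := S.prime_lam.ne_zero

lemma lam_dvd_p : S.lam ∣ (p : R) :=
  (dvd_pow_self _ (by have := S.hp.two_le; omega)).trans S.assoc.symm.dvd

lemma p_dvd_lam_pow : (p : R) ∣ S.lam ^ p :=
  S.assoc.dvd.trans (pow_dvd_pow _ (Nat.sub_le p 1))

lemma one_mem_mu : (1 : R) ∈ S.mu := one_mem_nthRootsFinset S.hp.pos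

lemma zeta_mem_mu : S.ζ ∈ S.mu := (mem_nthRootsFinset S.hp.pos 1).2 S.hζ.pow_eq_one

lemma card_mu : S.mu.card = p := S.hζ.card_nthRootsFinset

lemma lam_dvd_sub {η₁ η₂ : R} (h₁ : η₁ ∈ S.mu) (h₂ : η₂ ∈ S.mu) : S.lam ∣ η₁ - η₂ :=
  S.hζ.sub_one_dvd_sub S.hp h₁ h₂

lemma assoc_sub {η₁ η₂ : R} (h₁ : η₁ ∈ S.mu) (h₂ : η₂ ∈ S.mu) (hne : η₁ ≠ η₂) :
    Associated S.lam (η₁ - η₂) :=
  S.hζ.nthRootsFinset_pairwise_associated_sub_one_sub_of_prime S.hp h₁ h₂ hne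

lemma lam_dvd_int {n : ℤ} (h : (p : ℤ) ∣ n) : S.lam ∣ (n : R) := by
  obtain ⟨k, rfl⟩ := h
  push_cast
  exact Dvd.dvd.mul_right S.lam_dvd_p _

/-- `p`-th powers are congruent to rational integers modulo `p`. -/
lemma exists_int_pow_sub (ρ : R) :
    ∃ n : ℤ, S.lam ∣ ρ - (n : R) ∧ (p : R) ∣ ρ ^ p - (n : R) ^ p := by
  obtain ⟨n, hn⟩ := S.res ρ
  refine ⟨n, hn, S.p_dvd_lam_pow.trans ?_⟩
  rw [S.hζ.pow_sub_pow_eq_prod_sub_mul ρ (n : R) S.hp.pos]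
  calc S.lam ^ p = ∏ _η ∈ S.mu, S.lam := by rw [prod_const, S.card_mu]
    _ ∣ _ := Finset.prod_dvd_prod_of_dvd _ _ (fun η hη => ?_)
  have h1 : S.lam ∣ η - 1 := S.lam_dvd_sub hη S.one_mem_mu
  have : ρ - η * n = (ρ - n) - (η - 1) * n := by ring
  rw [this]
  exact dvd_sub hn (h1.mul_right _)

/-- A solution of the generalised Fermat equation `x ^ p + y ^ p = ε * (λ ^ m * z) ^ p`. -/
def IsSol (m : ℕ) (x y z : R) (ε : Rˣ) : Prop :=
  ¬ S.lam ∣ y ∧ ¬ S.lam ∣ z ∧ IsCoprime x y ∧ x ^ p + y ^ p = ε * (S.lam ^ m * z) ^ p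

lemma all_dvd {m : ℕ} {x y z : R} {ε : Rˣ} (h : S.IsSol m x y z ε) (hm : 1 ≤ m) :
    ∀ η ∈ S.mu, S.lam ∣ x + η * y := by
  obtain ⟨hy, hz, hxy, heq⟩ := h
  have h1 : S.lam ∣ x ^ p + y ^ p := by
    rw [heq]
    refine Dvd.dvd.mul_left (dvd_pow (Dvd.dvd.mul_right (dvd_pow_self _ (by omega)) _) S.hp.ne_zero) _
  rw [S.hζ.pow_add_pow_eq_prod_add_mul x y (S.hp.odd_of_ne_two S.hodd)] at h1
  obtain ⟨η₀, hη₀, h0⟩ := (S.prime_lam.dvd_finsetProd_iff _).1 h1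
  intro η hη
  have : x + η * y = (x + η₀ * y) + (η - η₀) * y := by ring
  rw [this]
  exact dvd_add h0 ((S.lam_dvd_sub hη hη₀).mul_right _)


lemma exists_sq {m : ℕ} {x y z : R} {ε : Rˣ} (h : S.IsSol m x y z ε) (hm : 1 ≤ m) :
    ∃ k : ℕ, S.lam ^ 2 ∣ x + S.ζ ^ k * y := by
  have hall := S.all_dvd h hm
  obtain ⟨hy, hz, hxy, heq⟩ := h
  obtain ⟨t, ht⟩ : S.lam ∣ x + y := by simpa using hall 1 S.one_mem_mu
  obtain ⟨nt, hnt⟩ := S.res t
  obtain ⟨ny, hny⟩ := S.res y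
  have hpny : ¬ (p : ℤ) ∣ ny := by
    intro hdvd
    apply hy
    have h2 := dvd_add hny (S.lam_dvd_int hdvd)
    simpa using h2
  obtain ⟨k, hk⟩ : ∃ k : ℕ, (p : ℤ) ∣ nt + k * ny := by
    have := Fact.mk S.hp
    have hny0 : (ny : ZMod p) ≠ 0 := by
      rwa [Ne, ZMod.intCast_zmod_eq_zero_iff_dvd]
    refine ⟨(-(nt : ZMod p) / (ny : ZMod p)).val, ?_⟩
    rw [← ZMod.intCast_zmod_eq_zero_iff_dvd]
    push_cast
    rw [ZMod.natCast_zmod_val, div_mul_cancel₀ _ hny0]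
    ring
  refine ⟨k, ?_⟩
  have hg : S.ζ ^ k - 1 = S.lam * ∑ i ∈ range k, S.ζ ^ i := (mul_geom_sum S.ζ k).symm
  have hgk : S.lam ∣ (∑ i ∈ range k, S.ζ ^ i) - (k : R) := by
    have : (∑ i ∈ range k, S.ζ ^ i) - (k : R) = ∑ i ∈ range k, (S.ζ ^ i - 1) := by
      simp [Finset.sum_sub_distrib]
    rw [this]
    exact Finset.dvd_sum (fun i _ => by simpa using sub_dvd_pow_sub_pow S.ζ 1 i)
  have key : x + S.ζ ^ k * y = S.lam * (t + (∑ i ∈ range k, S.ζ ^ i) * y) := by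
    have : x + S.ζ ^ k * y = (x + y) + (S.ζ ^ k - 1) * y := by ring
    rw [this, ht, hg]; ring
  rw [key, pow_two]
  apply mul_dvd_mul_left
  have : t + (∑ i ∈ range k, S.ζ ^ i) * y
      = (t - nt) + ((∑ i ∈ range k, S.ζ ^ i) - k) * y + k * (y - ny)
        + ((nt + k * ny : ℤ) : R) := by
    push_cast; ring
  rw [this]
  exact dvd_add (dvd_add (dvd_add hnt (hgk.mul_right _)) (hny.mul_left _)) (S.lam_dvd_int hk)

lemma normalize {m : ℕ} {x y z : R} {ε : Rˣ} (h : S.IsSol m x y z ε) (hm : 1 ≤ m) :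
    ∃ y', S.IsSol m x y' z ε ∧ S.lam ^ 2 ∣ x + y' := by
  obtain ⟨k, hk⟩ := S.exists_sq h hm
  obtain ⟨hy, hz, hxy, heq⟩ := h
  have hu : IsUnit (S.ζ ^ k) := (S.hζ.isUnit S.hp.ne_zero).pow k
  refine ⟨S.ζ ^ k * y, ⟨?_, hz, ?_, ?_⟩, hk⟩
  · rwa [hu.dvd_mul_left]
  · rwa [isCoprime_mul_unit_left_right hu]
  · rw [mul_pow, ← pow_mul, mul_comm k p, pow_mul, S.hζ.pow_eq_one, one_pow, one_mul]
    exact heq


variable [IsPrincipalIdealRing R]

lemma step {m : ℕ} {x y z : R} {ε : Rˣ} (h : S.IsSol m x y z ε) (hm : 1 ≤ m)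
    (hsq : S.lam ^ 2 ∣ x + y) :
    2 ≤ m ∧ ∃ x' y' z' ε', S.IsSol (m - 1) x' y' z' ε' := by
  classical
  have hall := S.all_dvd h hm
  obtain ⟨hy, hz, hxy, heq⟩ := h
  have hp0 : p ≠ 0 := S.hp.ne_zero
  -- the quotients `A η = (x + η y) / λ`
  have : ∀ η : R, ∃ a : R, η ∈ S.mu → x + η * y = S.lam * a := by
    intro η
    by_cases hη : η ∈ S.mu
    · obtain ⟨a, ha⟩ := hall η hη
      exact ⟨a, fun _ => ha⟩
    · exact ⟨0, fun h => absurd h hη⟩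
  choose A hA using this
  -- `λ ∤ A η` for `η ≠ 1`
  have hAndvd : ∀ η ∈ S.mu, η ≠ 1 → ¬ S.lam ∣ A η := by
    intro η hη hne hdvd
    have h2 : S.lam ^ 2 ∣ x + η * y := by
      rw [hA η hη, pow_two]; exact mul_dvd_mul_left _ hdvd
    have h3 : S.lam ^ 2 ∣ (η - 1) * y := by
      have : (η - 1) * y = (x + η * y) - (x + y) := by ring
      rw [this]; exact dvd_sub h2 hsq
    obtain ⟨u, hu⟩ := S.assoc_sub hη S.one_mem_mu hne
    rw [← hu, pow_two, mul_assoc] at h3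
    have h4 : S.lam ∣ ↑u * y := (mul_dvd_mul_iff_left S.lam_ne_zero).1 h3
    exact hy ((u.isUnit.dvd_mul_left).1 h4)
  -- pairwise coprimality
  have hcop : ∀ η₁ ∈ S.mu, ∀ η₂ ∈ S.mu, η₁ ≠ η₂ → IsCoprime (A η₁) (A η₂) := by
    intro η₁ h₁ η₂ h₂ hne
    obtain ⟨u, hu⟩ := S.assoc_sub h₁ h₂ hne
    obtain ⟨a, b, hab⟩ := hxy
    have e1 : A η₁ - A η₂ = u * y := by
      apply mul_left_cancel₀ S.lam_ne_zero
      rw [mul_sub, ← hA η₁ h₁, ← hA η₂ h₂, ← mul_assoc, hu]; ring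
    have e2 : η₂ * A η₁ - η₁ * A η₂ = - (u * x) := by
      apply mul_left_cancel₀ S.lam_ne_zero
      have t1 : S.lam * (η₂ * A η₁ - η₁ * A η₂)
          = η₂ * (S.lam * A η₁) - η₁ * (S.lam * A η₂) := by ring
      have t2 : S.lam * -(↑u * x) = -((S.lam * u) * x) := by ring
      rw [t1, ← hA η₁ h₁, ← hA η₂ h₂, t2, hu]; ring
    refine ⟨(↑u⁻¹ : R) * (b - a * η₂), (↑u⁻¹ : R) * (a * η₁ - b), ?_⟩
    have t3 : (↑u⁻¹ : R) * (b - a * η₂) * A η₁ + ↑u⁻¹ * (a * η₁ - b) * A η₂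
        = ↑u⁻¹ * (b * (A η₁ - A η₂) - a * (η₂ * A η₁ - η₁ * A η₂)) := by ring
    have t4 : (↑u⁻¹ : R) * (b * (↑u * y) - a * -(↑u * x)) = (↑u⁻¹ * ↑u) * (a * x + b * y) := by
      ring
    rw [t3, e1, e2, t4, hab, Units.inv_mul, one_mul]
  -- the product of the `A η`
  have hprod : ∏ η ∈ S.mu, A η = ε * (S.lam ^ (m - 1) * z) ^ p := by
    apply mul_left_cancel₀ (pow_ne_zero p S.lam_ne_zero)
    calc S.lam ^ p * ∏ η ∈ S.mu, A η = ∏ η ∈ S.mu, (S.lam * A η) := by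
            rw [Finset.prod_mul_distrib, Finset.prod_const, S.card_mu]
      _ = ∏ η ∈ S.mu, (x + η * y) := Finset.prod_congr rfl (fun η hη => (hA η hη).symm)
      _ = x ^ p + y ^ p :=
            (S.hζ.pow_add_pow_eq_prod_add_mul x y (S.hp.odd_of_ne_two S.hodd)).symm
      _ = ε * (S.lam ^ m * z) ^ p := heq
      _ = S.lam ^ p * (ε * (S.lam ^ (m - 1) * z) ^ p) := by
            obtain ⟨k, rfl⟩ : ∃ k, m = k + 1 := ⟨m - 1, by omega⟩
            simp only [Nat.add_sub_cancel]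
            generalize S.lam = l
            ring
  have hA1eq : x + y = S.lam * A 1 := by simpa using hA 1 S.one_mem_mu
  -- `m ≥ 2`
  have hm2 : 2 ≤ m := by
    by_contra hlt
    have hm1 : m = 1 := by omega
    subst hm1
    have hA1 : S.lam ∣ A 1 := by
      rw [hA1eq, pow_two] at hsq
      exact (mul_dvd_mul_iff_left S.lam_ne_zero).1 hsq
    have h5 : S.lam ∣ ∏ η ∈ S.mu, A η := hA1.trans (Finset.dvd_prod_of_mem A S.one_mem_mu)
    rw [hprod] at h5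
    simp only [Nat.sub_self, pow_zero, one_mul] at h5
    exact hz (S.prime_lam.dvd_of_dvd_pow ((ε.isUnit.dvd_mul_left).1 h5))
  refine ⟨hm2, ?_⟩
  -- `A 1 = λ ^ (p (m - 1)) * A0`
  have hA1 : S.lam ^ (p * (m - 1)) ∣ A 1 := by
    have h1 : S.lam ^ (p * (m - 1)) ∣ A 1 * ∏ η ∈ S.mu.erase 1, A η := by
      rw [Finset.mul_prod_erase S.mu A S.one_mem_mu, hprod, mul_pow, ← pow_mul, mul_comm (m - 1) p]
      exact Dvd.intro_left (↑ε * z ^ p) (by generalize S.lam = l; ring)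
    refine S.prime_lam.pow_dvd_of_dvd_mul_right _ ?_ h1
    rw [S.prime_lam.dvd_finsetProd_iff]
    rintro ⟨η, hη, hdvd⟩
    exact hAndvd η (Finset.mem_of_mem_erase hη) (Finset.ne_of_mem_erase hη) hdvd
  obtain ⟨A0, hA0⟩ := hA1
  have hprod0 : A0 * ∏ η ∈ S.mu.erase 1, A η = ε * z ^ p := by
    apply mul_left_cancel₀ (pow_ne_zero (p * (m - 1)) S.lam_ne_zero)
    rw [← mul_assoc, ← hA0, Finset.mul_prod_erase S.mu A S.one_mem_mu, hprod]
    generalize S.lam = l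
    ring
  have hcop0 : IsCoprime A0 (∏ η ∈ S.mu.erase 1, A η) := by
    apply IsCoprime.prod_right
    intro η hη
    have := hcop 1 S.one_mem_mu η (Finset.mem_of_mem_erase hη) (Finset.ne_of_mem_erase hη).symm
    rw [hA0] at this
    exact this.of_mul_left_right
  obtain ⟨ρ₀, hρ₀⟩ : ∃ ρ₀, Associated (ρ₀ ^ p) A0 := by
    refine exists_associated_pow_of_associated_pow_mul hcop0 (c := z) ?_
    rw [hprod0]
    exact (associated_unit_mul_left _ _ ε.isUnit).symm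
  have hpow : ∀ η ∈ S.mu, ∃ ρ, Associated (ρ ^ p) (A η) := by
    intro η hη
    have hc : IsCoprime (A η) (∏ η' ∈ S.mu.erase η, A η') :=
      IsCoprime.prod_right (fun η' hη' =>
        hcop η hη η' (Finset.mem_of_mem_erase hη') (Finset.ne_of_mem_erase hη').symm)
    refine exists_associated_pow_of_associated_pow_mul hc (c := S.lam ^ (m - 1) * z) ?_
    rw [Finset.mul_prod_erase S.mu A hη, hprod]
    exact (associated_unit_mul_left _ _ ε.isUnit).symm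
  -- the two roots `ζ` and `ζ⁻¹`
  have hζη : S.ζ * S.ζ ^ (p - 1) = 1 := by
    rw [← pow_succ', Nat.sub_add_cancel S.hp.pos, S.hζ.pow_eq_one]
  have hη₂ : S.ζ ^ (p - 1) ∈ S.mu := by
    rw [mem_nthRootsFinset S.hp.pos, ← pow_mul, mul_comm, pow_mul, S.hζ.pow_eq_one, one_pow]
  have hne1 : S.ζ ≠ 1 := S.hζ.ne_one S.hp.one_lt
  have hne2 : S.ζ ^ (p - 1) ≠ 1 := by
    intro h; rw [h, mul_one] at hζη; exact hne1 hζη
  have hne12 : S.ζ ≠ S.ζ ^ (p - 1) := by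
    intro h
    rw [← h, ← pow_two] at hζη
    have h2 : p ∣ 2 := S.hζ.dvd_of_pow_eq_one 2 hζη
    have := Nat.le_of_dvd (by norm_num) h2
    have := S.hp.two_le
    exact S.hodd (by omega)
  obtain ⟨ρ₁, u₁, h₁⟩ := hpow S.ζ S.zeta_mem_mu
  obtain ⟨ρ₂, u₂, h₂⟩ := hpow (S.ζ ^ (p - 1)) hη₂
  obtain ⟨u₀, h₀⟩ := hρ₀
  have hrel : A S.ζ + S.ζ * A (S.ζ ^ (p - 1))
      = (1 + S.ζ) * (S.lam ^ (p * (m - 1)) * A0) := by
    apply mul_left_cancel₀ S.lam_ne_zero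
    have e1 := hA S.ζ S.zeta_mem_mu
    have e2 := hA (S.ζ ^ (p - 1)) hη₂
    have e0 := hA1eq
    rw [hA0] at e0
    linear_combination (-1 : R) * e1 - S.ζ * e2 + (1 + S.ζ) * e0 + y * hζη
  -- units
  have hζu : IsUnit S.ζ := S.hζ.isUnit hp0
  have h1ζ : IsUnit (1 + S.ζ) := by
    have := S.hζ.geom_sum_isUnit S.hp.two_le (j := 2)
      ((Nat.coprime_primes Nat.prime_two S.hp).2 (Ne.symm S.hodd))
    simpa [Finset.sum_range_succ] using this
  set w : Rˣ := hζu.unit * u₂ * u₁⁻¹ with hw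
  set ε' : Rˣ := h1ζ.unit * u₀ * u₁⁻¹ with hε'
  have hnew : ρ₁ ^ p + (w : R) * ρ₂ ^ p = ε' * (S.lam ^ (m - 1) * ρ₀) ^ p := by
    have e : (ρ₁ ^ p * u₁ + S.ζ * (ρ₂ ^ p * u₂)) * (↑u₁⁻¹ : R)
        = ((1 + S.ζ) * (S.lam ^ (p * (m - 1)) * (ρ₀ ^ p * u₀))) * (↑u₁⁻¹ : R) := by
      rw [h₁, h₂, h₀, hrel]
    have hu1 : (u₁ : R) * (↑u₁⁻¹ : R) = 1 := Units.mul_inv u₁
    simp only [hw, hε', Units.val_mul, IsUnit.unit_spec]
    linear_combination e - ρ₁ ^ p * hu1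
  -- `w` is congruent to a rational integer modulo `p`
  have hlρ₂ : ¬ S.lam ∣ ρ₂ := by
    intro hd
    apply hAndvd _ hη₂ hne2
    rw [← h₂]
    exact Dvd.dvd.mul_right (dvd_pow hd hp0) _
  have hwint : ∃ n : ℤ, (p : R) ∣ (w : R) - (n : R) := by
    have hpdvd : (p : R) ∣ ρ₁ ^ p + (w : R) * ρ₂ ^ p := by
      rw [hnew]
      refine Dvd.dvd.mul_left (S.p_dvd_lam_pow.trans (pow_dvd_pow_of_dvd ?_ p)) _
      exact Dvd.dvd.mul_right (dvd_pow_self _ (by omega)) _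
    obtain ⟨n₁, -, hn₁⟩ := S.exists_int_pow_sub ρ₁
    obtain ⟨n₂, hn₂l, hn₂⟩ := S.exists_int_pow_sub ρ₂
    have hpn₂ : ¬ (p : ℤ) ∣ n₂ := by
      intro hd
      apply hlρ₂
      have := dvd_add hn₂l (S.lam_dvd_int hd)
      simpa using this
    have hcp : IsCoprime (p : ℤ) (n₂ ^ p) :=
      IsCoprime.pow_right ((Nat.prime_iff_prime_int.1 S.hp).coprime_iff_not_dvd.2 hpn₂)
    obtain ⟨a, b, hab⟩ := hcp
    refine ⟨-(b * n₁ ^ p), ?_⟩
    have habR : (a : R) * (p : R) + (b : R) * (n₂ : R) ^ p = 1 := by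
      have := congrArg (Int.cast : ℤ → R) hab
      push_cast at this
      exact this
    have : (w : R) - ((-(b * n₁ ^ p) : ℤ) : R)
        = (p : R) * (w * a) + b * ((ρ₁ ^ p + (w : R) * ρ₂ ^ p) - (ρ₁ ^ p - (n₁ : R) ^ p)
            - w * (ρ₂ ^ p - (n₂ : R) ^ p)) := by
      push_cast
      linear_combination (-(w : R)) * habR
    rw [this]
    exact dvd_add (dvd_mul_right _ _)
      (Dvd.dvd.mul_left (dvd_sub (dvd_sub hpdvd hn₁) (Dvd.dvd.mul_left hn₂ _)) _)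
  obtain ⟨v, hv⟩ := S.kummer w hwint
  refine ⟨ρ₁, v * ρ₂, ρ₀, ε', ?_, ?_, ?_, ?_⟩
  · rwa [v.isUnit.dvd_mul_left]
  · intro hd
    have h6 : S.lam ∣ A0 * ∏ η ∈ S.mu.erase 1, A η := by
      rw [← h₀]
      exact Dvd.dvd.mul_right (Dvd.dvd.mul_right (dvd_pow hd hp0) _) _
    rw [hprod0] at h6
    exact hz (S.prime_lam.dvd_of_dvd_pow ((ε.isUnit.dvd_mul_left).1 h6))
  · have h7 := hcop _ S.zeta_mem_mu _ hη₂ hne12
    rw [← h₁, ← h₂] at h7
    have h8 : IsCoprime (ρ₁ ^ p) (ρ₂ ^ p) :=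
      (isCoprime_mul_unit_right_left u₁.isUnit _ _).1
        ((isCoprime_mul_unit_right_right u₂.isUnit _ _).1 h7)
    have h9 : IsCoprime ρ₁ ρ₂ := (IsCoprime.pow_iff S.hp.pos S.hp.pos).1 h8
    rwa [isCoprime_mul_unit_left_right v.isUnit]
  · rw [mul_pow, ← Units.val_pow_eq_pow_val, ← hv]
    exact hnew

/-- **Kummer's descent**: the generalised Fermat equation has no solution. -/
theorem no_sol : ∀ (m : ℕ) (x y z : R) (ε : Rˣ), 1 ≤ m → ¬ S.IsSol m x y z ε := by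
  intro m
  induction m with
  | zero => intro x y z ε hm; omega
  | succ m ih =>
    intro x y z ε _ h
    obtain ⟨y', h', hsq⟩ := S.normalize h (by omega)
    obtain ⟨hm2, x', y'', z', ε', h''⟩ := S.step h' (by omega) hsq
    exact ih x' y'' z' ε' (by omega) h''

end KSetting


section Instantiate

open NumberField IsCyclotomicExtension.Rat

variable {p : ℕ} [hpF : Fact p.Prime] (K : Type*) [Field K] [NumberField K]
  [IsCyclotomicExtension {p} ℚ K]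

/-- Every element of `𝓞 K` is congruent to a rational integer modulo `ζ - 1`. -/
lemma exists_int_sub_dvd (hp2 : p ≠ 2) (x : 𝓞 K) :
    ∃ n : ℤ, (IsCyclotomicExtension.zeta_spec p ℚ K).toInteger - 1 ∣ x - (n : 𝓞 K) := by
  set hζ := IsCyclotomicExtension.zeta_spec p ℚ K with hζdef
  set I : Ideal (𝓞 K) := Ideal.span {hζ.toInteger - 1} with hI
  have hcard : Nat.card (𝓞 K ⧸ I) = p := by
    rw [hI, hζ.card_quotient_toInteger_sub_one, hζ.norm_toInteger_sub_one_of_prime_ne_two' hp2]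
    simp
  have h1 : (1 : 𝓞 K ⧸ I) ≠ 0 := by
    intro h
    have hsub : Subsingleton (𝓞 K ⧸ I) := subsingleton_of_zero_eq_one h.symm
    have : Nat.card (𝓞 K ⧸ I) = 1 := Nat.card_unique
    rw [hcard] at this
    exact hpF.out.one_lt.ne' this
  have hx : Ideal.Quotient.mk I x ∈ AddSubgroup.zmultiples (1 : 𝓞 K ⧸ I) :=
    mem_zmultiples_of_prime_card hcard h1
  obtain ⟨n, hn⟩ := AddSubgroup.mem_zmultiples_iff.1 hx
  refine ⟨n, ?_⟩
  rw [← Ideal.mem_span_singleton, ← hI, ← Ideal.Quotient.eq_zero_iff_mem, map_sub, ← hn]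
  simp

/-- The Kummer setting attached to the `p`-th cyclotomic field. -/
noncomputable def cyclSetting (hp2 : p ≠ 2)
    (hk : ∀ (u : (𝓞 K)ˣ) (n : ℤ), (p : 𝓞 K) ∣ (u : 𝓞 K) - (n : 𝓞 K) → ∃ v : (𝓞 K)ˣ, u = v ^ p) :
    KSetting (𝓞 K) p where
  ζ := (IsCyclotomicExtension.zeta_spec p ℚ K).toInteger
  hp := hpF.out
  hodd := hp2
  hζ := (IsCyclotomicExtension.zeta_spec p ℚ K).toInteger_isPrimitiveRoot
  prime_lam := (IsCyclotomicExtension.zeta_spec p ℚ K).zeta_sub_one_prime'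
  assoc := (associated_zeta_sub_one_pow_prime p (IsCyclotomicExtension.zeta_spec p ℚ K)).symm
  res := exists_int_sub_dvd K hp2
  int_dvd := fun _ h =>
    (zeta_sub_one_dvd_intCast_iff' p (IsCyclotomicExtension.zeta_spec p ℚ K)).1 h
  kummer := fun u ⟨n, hn⟩ => hk u n hn

/-- **Case II of Fermat's Last Theorem** for an odd prime `p` such that the ring of integers of
the `p`-th cyclotomic field is a PID and satisfies Kummer's lemma. -/
theorem caseII_aux (hp2 : p ≠ 2) [IsPrincipalIdealRing (𝓞 K)]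
    (hk : ∀ (u : (𝓞 K)ˣ) (n : ℤ), (p : 𝓞 K) ∣ (u : 𝓞 K) - (n : 𝓞 K) → ∃ v : (𝓞 K)ˣ, u = v ^ p)
    {a b c : ℤ} (hab : IsCoprime a b) (hc : c ≠ 0) (hpc : (p : ℤ) ∣ c) :
    a ^ p + b ^ p ≠ c ^ p := by
  intro heq
  have hp := hpF.out
  have hpint : Prime (p : ℤ) := Nat.prime_iff_prime_int.1 hp
  set S := cyclSetting K hp2 hk with hS
  -- `c = p ^ k * c'` with `p ∤ c'`
  obtain ⟨k, c', hc', rfl⟩ := WfDvdMonoid.max_power_factor hc hpint.irreducible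
  have hk1 : 1 ≤ k := by
    rcases Nat.eq_zero_or_pos k with h0 | h0
    · subst h0
      rw [pow_zero, one_mul] at hpc
      exact absurd hpc hc'
    · exact h0
  -- `p ∤ b`
  have hpb : ¬ (p : ℤ) ∣ b := by
    intro hb
    have ha : (p : ℤ) ∣ a ^ p := by
      have : a ^ p = ((p : ℤ) ^ k * c') ^ p - b ^ p := by linarith
      rw [this]
      exact dvd_sub (dvd_pow (Dvd.dvd.mul_right (dvd_pow_self _ (by omega)) _) hp.ne_zero)
        (dvd_pow hb hp.ne_zero)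
    have ha' : (p : ℤ) ∣ a := hpint.dvd_of_dvd_pow ha
    exact hpint.not_isUnit (hab.isUnit_of_dvd' ha' hb)
  obtain ⟨u, hu⟩ := S.assoc
  have hpR : (p : 𝓞 K) = S.lam ^ (p - 1) * (↑u⁻¹ : 𝓞 K) := by
    rw [← hu, mul_assoc, Units.mul_inv, mul_one]
  refine S.no_sol ((p - 1) * k) (a : 𝓞 K) (b : 𝓞 K) (c' : 𝓞 K) (u⁻¹ ^ (k * p)) ?_ ⟨?_, ?_, ?_, ?_⟩
  · have := hp.two_le
    exact Nat.mul_pos (by omega) hk1
  · exact fun h => hpb (S.int_dvd b h)
  · exact fun h => hc' (S.int_dvd c' h)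
  · exact hab.intCast
  · have h1 : ((a ^ p + b ^ p : ℤ) : 𝓞 K) = ((((p : ℤ) ^ k * c') ^ p : ℤ) : 𝓞 K) := by rw [heq]
    push_cast at h1
    rw [h1, hpR, Units.val_pow_eq_pow_val]
    generalize S.lam = l
    generalize (↑u⁻¹ : 𝓞 K) = w
    ring

end Instantiate

open NumberField in
/-- **Case II of Fermat's Last Theorem** for an odd prime `p` such that the ring of integers of
the `p`-th cyclotomic field is a PID and satisfies Kummer's lemma (interface form). -/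
theorem caseII {p : ℕ} [Fact p.Prime] (hp2 : p ≠ 2) (K : Type*) [Field K] [NumberField K]
    [IsCyclotomicExtension {p} ℚ K] [IsPrincipalIdealRing (𝓞 K)]
    (hk : ∀ (u : (𝓞 K)ˣ) (n : ℤ), (p : 𝓞 K) ∣ (u : 𝓞 K) - (n : 𝓞 K) → ∃ v : (𝓞 K)ˣ, u = v ^ p)
    {a b c : ℤ} (hab : IsCoprime a b) (hc : c ≠ 0) (hpc : (p : ℤ) ∣ c) :
    a ^ p + b ^ p ≠ c ^ p :=
  caseII_aux K hp2 hk hab hc hpc

end Fermat.Agent.S11
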